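import Mathlib
import Fermat.Agent.LT.H556.A0

/-!
# Row LT, tower T2, sub-leaf T2.07.30 `SubLocCont429` (helper472) -- OFF-MAIN, core

A family `h : X → GL₂(𝔸_K)` of elements supported at the infinite place `w` whose components at
`w` (entries of `infComp w (h x)`, complex numbers) are continuous is continuous for the topology
of `GL₂(𝔸_K)` (units of the matrix ring).

Imports `LT/H556/A0.lean` only (vocabulary `Adl`, `G`, `infComp`, `IsLocalAtInf`), so the file
does not depend on the versions of the tower Specs.  The leaf Prop of helper429 is proved from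
`locCont472` in `LocContLeaf.lean`.
-/

set_option autoImplicit false

open IsDedekindDomain NumberField

noncomputable section

namespace Fermat.Agent.LT.T2.H472

open Fermat.Agent.LT.H556.A0

variable {K : Type} [Field K] [NumberField K]

/-- The component at the infinite place `w`, as a ring homomorphism. -/
def cInf472 (w : InfinitePlace K) : Adl K →+* w.Completion where
  toFun a := a.1 w
  map_one' := rfl
  map_mul' _ _ := rfl
  map_zero' := rfl
  map_add' _ _ := rfl

/-- The component at the finite place `v`, as a ring homomorphism. -/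
def cFin472 (v : HeightOneSpectrum (𝓞 K)) : Adl K →+* v.adicCompletion K where
  toFun a := a.2 v
  map_one' := rfl
  map_mul' _ _ := rfl
  map_zero' := rfl
  map_add' _ _ := rfl

/-- The complex component at the infinite place `w`, as a ring homomorphism. -/
def cC472 (w : InfinitePlace K) : Adl K →+* ℂ :=
  (InfinitePlace.Completion.extensionEmbedding w).comp (cInf472 w)

theorem infComp_eq472 (w : InfinitePlace K) (g : G K) :
    infComp w g = (cC472 w).mapMatrix (g : Matrix (Fin 2) (Fin 2) (Adl K)) := rfl

theorem finComp_eq472 (v : HeightOneSpectrum (𝓞 K)) (g : G K) :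
    finComp v g = (cFin472 v).mapMatrix (g : Matrix (Fin 2) (Fin 2) (Adl K)) := rfl

theorem trivAtInf_iff472 (w : InfinitePlace K) (g : G K) :
    TrivAtInf w g ↔ (cInf472 w).mapMatrix (g : Matrix (Fin 2) (Fin 2) (Adl K)) = 1 := by
  constructor
  · intro h
    exact Matrix.ext fun i j => h i j
  · intro h i j
    exact congrFun (congrFun h i) j

/-- If the image of `g` under a ring homomorphism of the coefficients is `1`, so is the image of
`g⁻¹`. -/
theorem map_inv_eq_one472 {R : Type*} [CommRing R] (c : Adl K →+* R) (g : G K)
    (h : c.mapMatrix (g : Matrix (Fin 2) (Fin 2) (Adl K)) = 1) :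
    c.mapMatrix ((g⁻¹ : G K) : Matrix (Fin 2) (Fin 2) (Adl K)) = 1 := by
  have h1 : c.mapMatrix ((g : Matrix (Fin 2) (Fin 2) (Adl K)) *
      ((g⁻¹ : G K) : Matrix (Fin 2) (Fin 2) (Adl K))) = 1 := by
    rw [← Units.val_mul, mul_inv_cancel, Units.val_one, map_one]
  rwa [map_mul, h, one_mul] at h1

theorem trivAtInf_inv472 {w : InfinitePlace K} {g : G K} (h : TrivAtInf w g) :
    TrivAtInf w g⁻¹ :=
  (trivAtInf_iff472 w _).2 (map_inv_eq_one472 _ g ((trivAtInf_iff472 w g).1 h))

theorem trivAtFin_inv472 {v : HeightOneSpectrum (𝓞 K)} {g : G K} (h : TrivAtFin v g) :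
    TrivAtFin v g⁻¹ := by
  unfold TrivAtFin at h ⊢
  rw [finComp_eq472] at h ⊢
  exact map_inv_eq_one472 _ g h

/-- The inverse of an element supported at `w` is supported at `w`. -/
theorem isLocalAtInf_inv472 {w : InfinitePlace K} {g : G K} (h : IsLocalAtInf w g) :
    IsLocalAtInf w g⁻¹ :=
  ⟨fun w' hw' => trivAtInf_inv472 (h.1 w' hw'), fun v => trivAtFin_inv472 (h.2 v)⟩

/-- The complex component of `g⁻¹` is the inverse of the complex component of `g`. -/
theorem infComp_inv472 (w : InfinitePlace K) (g : G K) :
    infComp w g⁻¹ = (infComp w g)⁻¹ := by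
  have h1 : infComp w g * infComp w g⁻¹ = 1 := by
    rw [infComp_eq472, infComp_eq472, ← map_mul, ← Units.val_mul, mul_inv_cancel, Units.val_one,
      map_one]
  exact (Matrix.inv_eq_right_inv h1).symm

theorem det_infComp_ne_zero472 (w : InfinitePlace K) (g : G K) : (infComp w g).det ≠ 0 := by
  have h1 : infComp w g * infComp w g⁻¹ = 1 := by
    rw [infComp_eq472, infComp_eq472, ← map_mul, ← Units.val_mul, mul_inv_cancel, Units.val_one,
      map_one]
  have h2 := congrArg Matrix.det h1
  rw [Matrix.det_mul, Matrix.det_one] at h2
  exact left_ne_zero_of_mul_eq_one h2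

/-- The entries of the identity matrix over the finite adeles, at the place `v`. -/
theorem one_apply_fin472 (v : HeightOneSpectrum (𝓞 K)) (i j : Fin 2) :
    ((1 : Matrix (Fin 2) (Fin 2) (FiniteAdeleRing (𝓞 K) K)) i j) v
      = (1 : Matrix (Fin 2) (Fin 2) (v.adicCompletion K)) i j := by
  by_cases hij : i = j
  · subst hij
    rw [Matrix.one_apply_eq, Matrix.one_apply_eq]
    rfl
  · rw [Matrix.one_apply_ne hij, Matrix.one_apply_ne hij]
    rfl

/-- The matrix of a family supported at `w` with continuous complex components is continuous. -/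
theorem continuous_val472 (w : InfinitePlace K) {X : Type} [TopologicalSpace X] (h : X → G K)
    (hloc : ∀ x, IsLocalAtInf w (h x))
    (hc : ∀ i j : Fin 2, Continuous fun x => infComp w (h x) i j) :
    Continuous fun x => ((h x : G K) : Matrix (Fin 2) (Fin 2) (Adl K)) := by
  refine continuous_matrix fun i j => ?_
  have h1 : Continuous fun x =>
      (((h x : G K) : Matrix (Fin 2) (Fin 2) (Adl K)) i j).1 := by
    refine continuous_pi fun w' => ?_
    by_cases hw : w' = w
    · subst hw
      exact (InfinitePlace.Completion.isometry_extensionEmbedding w').isUniformInducing.isInducing.continuous_iff.2 (hc i j)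
    · exact (continuous_const (y := (1 : Matrix (Fin 2) (Fin 2) w'.Completion) i j)).congr
        fun x => ((hloc x).1 w' hw i j).symm
  have h2 : Continuous fun x =>
      (((h x : G K) : Matrix (Fin 2) (Fin 2) (Adl K)) i j).2 := by
    refine (continuous_const
      (y := (1 : Matrix (Fin 2) (Fin 2) (FiniteAdeleRing (𝓞 K) K)) i j)).congr fun x => ?_
    refine FiniteAdeleRing.ext K fun v => ?_
    rw [one_apply_fin472]
    exact (congrFun (congrFun ((hloc x).2 v) i) j).symm
  exact h1.prodMk h2

/-- **T2.07.30, core.**  A family of elements supported at the infinite place `w` with continuous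
components is continuous. -/
theorem locCont472 (K : Type) [Field K] [NumberField K] (w : InfinitePlace K) (X : Type)
    [TopologicalSpace X] (h : X → G K) (hloc : ∀ x, IsLocalAtInf w (h x))
    (hc : ∀ i j : Fin 2, Continuous fun x => infComp w (h x) i j) : Continuous h := by
  rw [Units.continuous_iff]
  refine ⟨continuous_val472 w h hloc hc, ?_⟩
  have hM : Continuous fun x => infComp w (h x) := continuous_matrix hc
  have hinv : Continuous fun x => (infComp w (h x))⁻¹ := by
    rw [continuous_iff_continuousAt]
    intro x
    have hx : ContinuousAt Ring.inverse (infComp w (h x)).det := by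
      have : ContinuousAt (fun z : ℂ => z⁻¹) (infComp w (h x)).det :=
        continuousAt_inv₀ (det_infComp_ne_zero472 w (h x))
      have hfun : (Ring.inverse : ℂ → ℂ) = fun z => z⁻¹ := by
        funext z
        exact Ring.inverse_eq_inv z
      rw [hfun]
      exact this
    exact ContinuousAt.comp (f := fun x => infComp w (h x))
      (g := fun A : Matrix (Fin 2) (Fin 2) ℂ => A⁻¹)
      (continuousAt_matrix_inv (infComp w (h x)) hx) hM.continuousAt
  exact continuous_val472 w (fun x => (h x)⁻¹) (fun x => isLocalAtInf_inv472 (hloc x))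
    fun i j => by
      have : (fun x => infComp w (h x)⁻¹ i j) = fun x => (infComp w (h x))⁻¹ i j := by
        funext x
        rw [infComp_inv472]
      rw [this]
      exact hinv.matrix_elem i j

end Fermat.Agent.LT.T2.H472

end
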