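import Fermat.Agent.LT.T2.H472.LocCont
import Fermat.Agent.LT.T2.H429.OpsSpec

/-!
# Row LT, tower T2, sub-leaf T2.07.30 `SubLocCont429` (helper472) -- OFF-MAIN, leaf

`subLocCont472 : T2.H429.SubLocCont429 K`, UNCONDITIONAL, exact type of
`LT/T2/H429/OpsSpec.lean` (helper429@dcf706097, sha256 657e0d9a).
-/

set_option autoImplicit false

namespace Fermat.Agent.LT.T2.H472

/-- **T2.07.30** `SubLocCont429`. -/
theorem subLocCont472 (K : Type) [Field K] [NumberField K] :
    Fermat.Agent.LT.T2.H429.SubLocCont429 K :=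
  fun w X _ h hloc hc => locCont472 K w X h hloc hc

end Fermat.Agent.LT.T2.H472
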